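import Fermat.Agent.S56.P3.H726.Rec

/-!
# S56 / P3(b) — the case `p = 5`, and vanishing of `f = tr Ψ` on `H` (helper726)
-/

set_option autoImplicit false

namespace Fermat.Agent.S56.P3.H726

open Matrix Fermat.Agent.S56.H726

namespace TwCore

variable {k : Type*} [Field k] {G : Type*} [Group G] (D : TwCore k G)

/-- If `tr (ρ σ * Y) = 0` for all `σ ∈ H` then `Y = 0`. -/
theorem eq_zero_of_trace_ρ_mul {Y : Matrix (Fin 2) (Fin 2) k}
    (h : ∀ σ ∈ D.H, (D.ρ σ * Y).trace = 0) : Y = 0 := by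
  apply m2_eq_zero_of_trace_mul
  intro X
  set L : Matrix (Fin 2) (Fin 2) k →ₗ[k] k :=
    (Matrix.traceLinearMap (Fin 2) k k).comp (LinearMap.mulRight k Y) with hL
  have hle : Submodule.span k (D.ρ '' (D.H : Set G)) ≤ LinearMap.ker L := by
    rw [Submodule.span_le]
    rintro _ ⟨σ, hσ, rfl⟩
    exact h σ hσ
  rw [D.span] at hle
  have : X ∈ LinearMap.ker L := hle Submodule.mem_top
  exact this

/-- If `tr (Y * ρ σ) = 0` for all `σ ∈ H` then `Y = 0`. -/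
theorem eq_zero_of_trace_mul_ρ {Y : Matrix (Fin 2) (Fin 2) k}
    (h : ∀ σ ∈ D.H, (Y * D.ρ σ).trace = 0) : Y = 0 :=
  D.eq_zero_of_trace_ρ_mul (fun σ hσ => by rw [Matrix.trace_mul_comm]; exact h σ hσ)

/-- If `Y` commutes with `ρ(H)` then it commutes with everything. -/
theorem commute_of_commute_ρ {Y : Matrix (Fin 2) (Fin 2) k}
    (h : ∀ σ ∈ D.H, Y * D.ρ σ = D.ρ σ * Y) (X : Matrix (Fin 2) (Fin 2) k) :
    Y * X = X * Y := by
  set L : Matrix (Fin 2) (Fin 2) k →ₗ[k] Matrix (Fin 2) (Fin 2) k :=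
    LinearMap.mulLeft k Y - LinearMap.mulRight k Y with hL
  have hle : Submodule.span k (D.ρ '' (D.H : Set G)) ≤ LinearMap.ker L := by
    rw [Submodule.span_le]
    rintro _ ⟨σ, hσ, rfl⟩
    show L (D.ρ σ) = 0
    simp [hL, h σ hσ]
  rw [D.span] at hle
  have : X ∈ LinearMap.ker L := hle Submodule.mem_top
  have h0 : L X = 0 := this
  simp only [hL, LinearMap.sub_apply, LinearMap.mulLeft_apply, LinearMap.mulRight_apply] at h0
  exact sub_eq_zero.mp h0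

variable {τ σ₀ : G} {n : Matrix (Fin 2) (Fin 2) k}

theorem exists_σ₀ (hn0 : n ≠ 0) : ∃ σ₀ ∈ D.H, (D.ρ σ₀ * n).trace ≠ 0 := by
  by_contra h
  push Not at h
  exact hn0 (D.eq_zero_of_trace_ρ_mul h)

theorem ρ_conj (g τ : G) : D.ρ (g * τ * g⁻¹) = D.ρ g * D.ρ τ * D.ρ g⁻¹ := by
  rw [map_mul, map_mul]

theorem trace_ρ_conj (g τ : G) : (D.ρ (g * τ * g⁻¹)).trace = (D.ρ τ).trace := by
  rw [D.ρ_conj, Matrix.trace_mul_comm, ← mul_assoc, D.ρ_inv_mul, one_mul]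

/-- `p = 5`, the case `e ≠ 0`. -/
theorem five_of_e_ne [Finite k] [Fact (Nat.Prime 5)] [CharP k 5] (h2 : (2 : k) ≠ 0)
    (hτ : τ ∈ D.H) (hn : D.ρ τ = 1 + n)
    (hn2 : n * n = 0) (hμ : (D.Ψ τ).trace ≠ 0) (g : G)
    (hd1 : (D.ρ g).det ≠ 1) (hd2 : (D.ρ g).det ≠ -1)
    (he : (D.ρ (g * τ * g⁻¹) * n).trace ≠ 0) : False := by
  have hσ₀ : g * τ * g⁻¹ ∈ D.H := D.normal.conj_mem τ hτ g
  have ht₀ : (D.ρ (g * τ * g⁻¹)).trace = 2 := by
    rw [D.trace_ρ_conj, hn, Matrix.trace_add, m2_trace_of_sq_zero hn2, Matrix.trace_one,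
      Fintype.card_fin]
    norm_num
  have h := seq_five (fun j => (D.Ψ (g * τ * g⁻¹ * τ ^ j)).trace) (D.Ψ τ).trace
    (D.ρ (g * τ * g⁻¹) * n).trace
    (fun j => by
      have := D.rec_step hτ hσ₀ hn hn2 j
      rw [ht₀] at this
      exact this)
    (fun j => by
      show (D.Ψ (g * τ * g⁻¹ * τ ^ (j + 5))).trace = _
      rw [D.periodic 5 hτ hn hn2])
    (fun j h => by
      apply D.vanish 5 h2 hτ hσ₀ hn hn2 j
      rw [ht₀]
      exact h)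
    he hμ
  simp only [pow_zero, mul_one] at h
  rw [D.f_conj g hτ] at h
  rcases h with h | h
  · apply hd1
    have : ((D.ρ g).det - 1) * (D.Ψ τ).trace = 0 := by linear_combination h
    rcases mul_eq_zero.mp this with h' | h'
    · exact sub_eq_zero.mp h'
    · exact absurd h' hμ
  · apply hd2
    have : ((D.ρ g).det + 1) * (D.Ψ τ).trace = 0 := by linear_combination h
    rcases mul_eq_zero.mp this with h' | h'
    · exact eq_neg_of_add_eq_zero_left h'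
    · exact absurd h' hμ

/-- `p = 5`: if `e(g) = 0` then `e(σ₀ g) ≠ 0`. -/
theorem five_e_of_zero (hσ₀ : σ₀ ∈ D.H) (hn : D.ρ τ = 1 + n)
    (hn2 : n * n = 0) (hn0 : n ≠ 0) (hc : (D.ρ σ₀ * n).trace ≠ 0) (g : G)
    (he : (D.ρ (g * τ * g⁻¹) * n).trace = 0) :
    (D.ρ (σ₀ * g * τ * (σ₀ * g)⁻¹) * n).trace ≠ 0 := by
  have htn := m2_trace_of_sq_zero hn2
  -- `n' = ρ g * n * ρ g⁻¹`
  have e1 : D.ρ (g * τ * g⁻¹) = 1 + D.ρ g * n * D.ρ g⁻¹ := by
    rw [D.ρ_conj, hn, mul_add, mul_one, add_mul, D.ρ_mul_inv]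
  have hn'2 : (D.ρ g * n * D.ρ g⁻¹) * (D.ρ g * n * D.ρ g⁻¹) = 0 := by
    have : (D.ρ g * n * D.ρ g⁻¹) * (D.ρ g * n * D.ρ g⁻¹) =
        D.ρ g * n * (D.ρ g⁻¹ * D.ρ g) * n * D.ρ g⁻¹ := by noncomm_ring
    rw [this, D.ρ_inv_mul, mul_one, mul_assoc (D.ρ g), hn2, mul_zero, zero_mul]
  have htr : ((D.ρ g * n * D.ρ g⁻¹) * n).trace = 0 := by
    rw [e1, add_mul, one_mul, Matrix.trace_add, htn, zero_add] at he
    exact he
  obtain ⟨y, hy⟩ := m2_nil_prop hn2 hn'2 htr hn0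
  have hy0 : y ≠ 0 := by
    rintro rfl
    rw [zero_smul] at hy
    apply hn0
    have : n = (D.ρ g⁻¹ * D.ρ g) * n * (D.ρ g⁻¹ * D.ρ g) := by
      rw [D.ρ_inv_mul, one_mul, mul_one]
    rw [this]
    have : (D.ρ g⁻¹ * D.ρ g) * n * (D.ρ g⁻¹ * D.ρ g) =
        D.ρ g⁻¹ * (D.ρ g * n * D.ρ g⁻¹) * D.ρ g := by noncomm_ring
    rw [this, hy, mul_zero, zero_mul]
  -- the new conjugate
  have e2 : D.ρ (σ₀ * g * τ * (σ₀ * g)⁻¹) =
      1 + y • (D.ρ σ₀ * n * D.ρ σ₀⁻¹) := by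
    have : σ₀ * g * τ * (σ₀ * g)⁻¹ = σ₀ * (g * τ * g⁻¹) * σ₀⁻¹ := by group
    rw [this, D.ρ_conj σ₀, e1, hy, mul_add, mul_one, add_mul, D.ρ_mul_inv, Matrix.mul_smul,
      Matrix.smul_mul]
  have hB' := m2_inv_of_det_one (D.det_H σ₀ hσ₀) (D.ρ_mul_inv σ₀)
  have e3 : (D.ρ σ₀ * n * D.ρ σ₀⁻¹ * n).trace = -((D.ρ σ₀ * n).trace) ^ 2 := by
    have s := m2_nil_sandwich hn2 htn (D.ρ σ₀⁻¹)
    rw [mul_assoc (D.ρ σ₀ * n), mul_assoc (D.ρ σ₀), ← mul_assoc n, s, Matrix.mul_smul,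
      Matrix.trace_smul, smul_eq_mul, hB', mul_sub, Matrix.trace_sub, Matrix.mul_smul, mul_one,
      Matrix.trace_smul, htn, smul_zero, zero_sub, Matrix.trace_mul_comm n (D.ρ σ₀)]
    ring
  rw [e2, add_mul, one_mul, Matrix.trace_add, htn, zero_add, Matrix.smul_mul, Matrix.trace_smul,
    e3, smul_eq_mul]
  exact mul_ne_zero hy0 (neg_ne_zero.mpr (pow_ne_zero 2 hc))

/-- A unipotent element with `f ≠ 0` from an element of trace `2`. -/
theorem unip_of_trace_two {σ : G} (hσ : σ ∈ D.H) (ht : (D.ρ σ).trace = 2)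
    (hf : (D.Ψ σ).trace ≠ 0) :
    ∃ n : Matrix (Fin 2) (Fin 2) k, D.ρ σ = 1 + n ∧ n * n = 0 ∧ n ≠ 0 := by
  refine ⟨D.ρ σ - 1, by abel, ?_, ?_⟩
  · have h := m2_sq (D.ρ σ)
    rw [ht, D.det_H σ hσ] at h
    rw [sub_mul, mul_sub, h]
    simp only [mul_one, one_mul]
    module
  · intro h0
    apply hf
    rw [D.Ψ_N σ hσ (sub_eq_zero.mp h0), Matrix.trace_zero]

theorem exists_unip [Finite k] (p : ℕ) [Fact p.Prime] [CharP k p] (h2 : (2 : k) ≠ 0)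
    (hex : ∃ σ ∈ D.H, (D.Ψ σ).trace ≠ 0) :
    ∃ τ ∈ D.H, ∃ n : Matrix (Fin 2) (Fin 2) k, D.ρ τ = 1 + n ∧ n * n = 0 ∧ n ≠ 0 ∧
      (D.Ψ τ).trace ≠ 0 := by
  obtain ⟨σ, hσ, hf⟩ := hex
  have ht : (D.ρ σ).trace ^ 2 = 4 := by
    by_contra h
    exact hf (D.f_eq_zero_of_trace_sq_ne p h2 hσ h)
  have ht' : ((D.ρ σ).trace - 2) * ((D.ρ σ).trace + 2) = 0 := by linear_combination ht
  rcases mul_eq_zero.mp ht' with h | h
  · have ht2 : (D.ρ σ).trace = 2 := sub_eq_zero.mp h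
    obtain ⟨n, h1, h2', h3⟩ := D.unip_of_trace_two hσ ht2 hf
    exact ⟨σ, hσ, n, h1, h2', h3, hf⟩
  · have ht2 : (D.ρ σ).trace = -2 := eq_neg_of_add_eq_zero_left h
    have hσ2 : σ * σ ∈ D.H := D.H.mul_mem hσ hσ
    have hadd := D.f_add hσ hσ
    rw [mul_inv_cancel, D.Ψ_one, Matrix.trace_zero, add_zero, ht2] at hadd
    have hf2 : (D.Ψ (σ * σ)).trace ≠ 0 := by
      rw [hadd]
      intro h0
      apply hf
      have : (4 : k) * (D.Ψ σ).trace = 0 := by linear_combination -h0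
      rcases mul_eq_zero.mp this with h' | h'
      · exfalso
        apply h2
        have : (2 : k) * 2 = 0 := by linear_combination h'
        exact mul_self_eq_zero.mp this
      · exact h'
    have htr2 : (D.ρ (σ * σ)).trace = 2 := by
      rw [map_mul, m2_sq, Matrix.trace_sub, Matrix.trace_smul, Matrix.trace_smul, ht2,
        D.det_H σ hσ, Matrix.trace_one, Fintype.card_fin]
      simp only [smul_eq_mul]
      push_cast
      ring
    obtain ⟨n, h1, h2', h3⟩ := D.unip_of_trace_two hσ2 htr2 hf2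
    exact ⟨σ * σ, hσ2, n, h1, h2', h3, hf2⟩

/-- **Vanishing of `f = tr Ψ` on `H`.** -/
theorem f_eq_zero [Finite k] (p : ℕ) [Fact p.Prime] [CharP k p] (hp2 : p ≠ 2)
    (h5 : p = 5 → ∃ g : G, (D.ρ g).det ≠ 1 ∧ (D.ρ g).det ≠ -1) :
    ∀ σ ∈ D.H, (D.Ψ σ).trace = 0 := by
  by_contra hcon
  push Not at hcon
  have hpr : p.Prime := Fact.out
  have h2 : (2 : k) ≠ 0 := by
    have := natCast_ne_zero_of_lt (k := k) p (n := 2) (by norm_num)
      (lt_of_le_of_ne hpr.two_le (Ne.symm hp2))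
    exact_mod_cast this
  obtain ⟨τ, hτ, n, hn, hn2, hn0, hμ⟩ := D.exists_unip p h2 hcon
  obtain ⟨σ₀, hσ₀, hc⟩ := D.exists_σ₀ hn0
  have hp3 : p = 3 ∨ p = 5 ∨ 7 ≤ p := by
    rcases Nat.lt_or_ge p 7 with h | h
    · have h2le := hpr.two_le
      interval_cases p
      · exact absurd rfl hp2
      · exact Or.inl rfl
      · exact absurd hpr (by decide)
      · exact Or.inr (Or.inl rfl)
      · exact absurd hpr (by decide)
    · exact Or.inr (Or.inr h)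
  rcases hp3 with h | h | h
  · exact absurd (D.unip_contra p h2 (Or.inl h) hτ hσ₀ hn hn2) (mul_ne_zero hμ hc)
  · subst h
    obtain ⟨g, hd1, hd2⟩ := h5 rfl
    by_cases he : (D.ρ (g * τ * g⁻¹) * n).trace = 0
    · have he' := D.five_e_of_zero hσ₀ hn hn2 hn0 hc g he
      have hdet : (D.ρ (σ₀ * g)).det = (D.ρ g).det := by
        rw [map_mul, Matrix.det_mul, D.det_H σ₀ hσ₀, one_mul]
      refine D.five_of_e_ne h2 hτ hn hn2 hμ (σ₀ * g) (by rw [hdet]; exact hd1)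
        (by rw [hdet]; exact hd2) ?_
      exact he'
    · exact D.five_of_e_ne h2 hτ hn hn2 hμ g hd1 hd2 he
  · exact absurd (D.unip_contra p h2 (Or.inr h) hτ hσ₀ hn hn2) (mul_ne_zero hμ hc)

end TwCore

end Fermat.Agent.S56.P3.H726
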