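import Fermat.Agent.S56.H726.Mat2

/-!
# S56 / P3 / H1CORE — elements of `SL₂(k)` with `tr² ≠ 4` have order prime to `p` (helper726)

No assumption on the eigenvalues: `B ∈ M₂(k)`, `det B = 1`, `(tr B)² ≠ 4`, `k` finite of odd
characteristic `p`.  Then `B ^ N = 1` for some `N` prime to `p`.
-/

set_option autoImplicit false

namespace Fermat.Agent.S56.P3.H726

open Matrix Fermat.Agent.S56.H726

variable {k : Type*} [Field k]

/-- A nilpotent `2 × 2` matrix has square zero. -/
theorem m2_sq_zero_of_isNilpotent {n : Matrix (Fin 2) (Fin 2) k} (h : IsNilpotent n) :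
    n * n = 0 := by
  have ht : n.trace = 0 := (Matrix.isNilpotent_trace_of_isNilpotent h).eq_zero
  have hd : n.det = 0 := by
    obtain ⟨j, hj⟩ := h
    have hj0 : j ≠ 0 := by
      rintro rfl
      simp at hj
    have : n.det ^ j = 0 := by rw [← Matrix.det_pow, hj, Matrix.det_zero]
    exact (pow_eq_zero_iff hj0).mp this
  rw [m2_sq, ht, hd, zero_smul, zero_smul, sub_zero]

/-- Powers of `B` lie in the span of `1` and `B`. -/
theorem m2_pow_mem_span (B : Matrix (Fin 2) (Fin 2) k) (j : ℕ) :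
    ∃ a b : k, B ^ j = a • (1 : Matrix (Fin 2) (Fin 2) k) + b • B := by
  induction j with
  | zero => exact ⟨1, 0, by simp⟩
  | succ j ih =>
    obtain ⟨a, b, h⟩ := ih
    refine ⟨-(b * B.det), a + b * B.trace, ?_⟩
    rw [pow_succ, h, add_mul, Matrix.smul_mul, Matrix.smul_mul, one_mul, m2_sq]
    module

/-- Elements of `SL₂(k)` with `tr² ≠ 4` have order prime to `p`. -/
theorem m2_exists_pow_eq_one [Finite k] (p : ℕ) [Fact p.Prime] [CharP k p] (h2 : (2 : k) ≠ 0)
    {B B' : Matrix (Fin 2) (Fin 2) k} (hdet : B.det = 1) (hinv : B * B' = 1)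
    (ht : B.trace ^ 2 ≠ 4) : ∃ N : ℕ, (N : k) ≠ 0 ∧ B ^ N = 1 := by
  classical
  have hpr : p.Prime := Fact.out
  have hinv' : B' * B = 1 := mul_eq_one_comm.mp hinv
  let u : (Matrix (Fin 2) (Fin 2) k)ˣ := ⟨B, B', hinv, hinv'⟩
  have hpos : 0 < orderOf u := orderOf_pos u
  obtain ⟨a, N, hN, hord⟩ := Nat.exists_eq_pow_mul_and_not_dvd hpos.ne' p hpr.ne_one
  have hNk : (N : k) ≠ 0 := fun h => hN ((CharP.cast_eq_zero_iff k p N).mp h)
  refine ⟨N, hNk, ?_⟩
  have hB : B ^ (p ^ a * N) = 1 := by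
    have := pow_orderOf_eq_one u
    rw [hord] at this
    have h' := congrArg (fun x : (Matrix (Fin 2) (Fin 2) k)ˣ => (x : Matrix (Fin 2) (Fin 2) k))
      this
    simpa [u] using h'
  have hC : (B ^ N) ^ p ^ a = 1 := by rw [← pow_mul, mul_comm, hB]
  have hnil : IsNilpotent (B ^ N - 1) := by
    refine ⟨p ^ a, ?_⟩
    rw [sub_pow_char_pow_of_commute p a (Commute.one_right _), hC, one_pow, sub_self]
  have hn2 := m2_sq_zero_of_isNilpotent hnil
  obtain ⟨x, y, hxy⟩ := m2_pow_mem_span B N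
  -- `n = (x - 1) + y B`
  have hn : B ^ N - 1 = (x - 1) • (1 : Matrix (Fin 2) (Fin 2) k) + y • B := by
    rw [hxy]; module
  have htr := m2_trace_of_sq_zero hn2
  have hcomm : (B ^ N - 1) * B = B * (B ^ N - 1) := by
    rw [sub_mul, mul_sub, one_mul, mul_one, ← pow_succ, ← pow_succ']
  have hnB2 : ((B ^ N - 1) * B) * ((B ^ N - 1) * B) = 0 := by
    calc ((B ^ N - 1) * B) * ((B ^ N - 1) * B)
        = (B ^ N - 1) * (B * (B ^ N - 1)) * B := by noncomm_ring
      _ = (B ^ N - 1) * ((B ^ N - 1) * B) * B := by rw [hcomm]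
      _ = ((B ^ N - 1) * (B ^ N - 1)) * B * B := by noncomm_ring
      _ = 0 := by rw [hn2, zero_mul, zero_mul]
  have htrB := m2_trace_of_sq_zero hnB2
  have hBB : (B * B).trace = B.trace ^ 2 - 2 := by
    rw [m2_sq, hdet, Matrix.trace_sub, Matrix.trace_smul, Matrix.trace_smul, Matrix.trace_one,
      Fintype.card_fin]
    simp only [smul_eq_mul]
    push_cast
    ring
  rw [hn] at htr htrB
  rw [Matrix.trace_add, Matrix.trace_smul, Matrix.trace_smul, Matrix.trace_one, Fintype.card_fin,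
    smul_eq_mul, smul_eq_mul] at htr
  rw [add_mul, Matrix.smul_mul, Matrix.smul_mul, one_mul, Matrix.trace_add, Matrix.trace_smul,
    Matrix.trace_smul, hBB, smul_eq_mul, smul_eq_mul] at htrB
  push_cast at htr
  have hy : y * (B.trace ^ 2 - 4) = 0 := by
    linear_combination 2 * htrB - B.trace * htr
  have hy0 : y = 0 := by
    rcases mul_eq_zero.mp hy with h | h
    · exact h
    · exact absurd (sub_eq_zero.mp h) ht
  have hx0 : x - 1 = 0 := by
    rw [hy0] at htr
    have : (x - 1) * 2 = 0 := by linear_combination htr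
    rcases mul_eq_zero.mp this with h | h
    · exact h
    · exact absurd h h2
  have : B ^ N - 1 = 0 := by rw [hn, hx0, hy0, zero_smul, zero_smul, add_zero]
  exact sub_eq_zero.mp this

end Fermat.Agent.S56.P3.H726
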