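import Fermat.Agent.S56.P3.H726.Coc
import Fermat.Agent.S56.P3.H726.Order
import Fermat.Agent.S56.H726.Mat2b
import Fermat.Agent.S56.H726.Seq

/-!
# S56 / P3(b) — the recurrence along a unipotent element (helper726)

(IV) `f = tr Ψ` vanishes on elements of `H` with distinct eigenvalues; the sequence
`F j = f (σ₀ τ^j)` for a unipotent `ρ τ = 1 + n` satisfies the recurrence of `Seq.lean`.
-/

set_option autoImplicit false

namespace Fermat.Agent.S56.P3.H726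

open Matrix Fermat.Agent.S56.H726

namespace TwCore

variable {k : Type*} [Field k] {G : Type*} [Group G] (D : TwCore k G)

/-- (IV) `f` vanishes on elements of `H` with `tr² ≠ 4`. -/
theorem f_eq_zero_of_trace_sq_ne [Finite k] (p : ℕ) [Fact p.Prime] [CharP k p]
    (h2 : (2 : k) ≠ 0) {σ : G} (hσ : σ ∈ D.H)
    (h : (D.ρ σ).trace ^ 2 ≠ 4) : (D.Ψ σ).trace = 0 := by
  obtain ⟨N, hN, hpow⟩ := m2_exists_pow_eq_one p h2 (D.det_H σ hσ) (D.ρ_mul_inv σ) h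
  have h0 := D.natCast_mul_f_eq_zero hσ N hpow
  rcases mul_eq_zero.mp h0 with h' | h'
  · exact absurd h' hN
  · exact h'

variable {τ σ₀ : G} {n : Matrix (Fin 2) (Fin 2) k}

theorem ρ_pow_unip (hn : D.ρ τ = 1 + n) (hn2 : n * n = 0) (j : ℕ) :
    D.ρ (τ ^ j) = 1 + (j : k) • n := by
  rw [map_pow, hn, m2_unip_pow hn2]

theorem trace_mul_pow_unip (hn : D.ρ τ = 1 + n) (hn2 : n * n = 0) (j : ℕ) :
    (D.ρ (σ₀ * τ ^ j)).trace = (D.ρ σ₀).trace + (j : k) * (D.ρ σ₀ * n).trace := by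
  rw [map_mul, D.ρ_pow_unip hn hn2, mul_add, mul_one, Matrix.mul_smul, Matrix.trace_add,
    Matrix.trace_smul, smul_eq_mul]

/-- The recurrence (R). -/
theorem rec_step (hτ : τ ∈ D.H) (hσ₀ : σ₀ ∈ D.H) (hn : D.ρ τ = 1 + n) (hn2 : n * n = 0)
    (j : ℕ) :
    (D.Ψ (σ₀ * τ ^ (j + 2))).trace - 2 * (D.Ψ (σ₀ * τ ^ (j + 1))).trace +
      (D.Ψ (σ₀ * τ ^ j)).trace =
      (D.Ψ τ).trace * ((D.ρ σ₀).trace + ((j : k) + 1) * (D.ρ σ₀ * n).trace) := by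
  have h := D.f_add (D.H.mul_mem hσ₀ (D.H.pow_mem hτ (j + 1))) hτ
  have e1 : σ₀ * τ ^ (j + 1) * τ = σ₀ * τ ^ (j + 2) := by
    rw [mul_assoc, ← pow_succ]
  have e2 : σ₀ * τ ^ (j + 1) * τ⁻¹ = σ₀ * τ ^ j := by
    rw [pow_succ, ← mul_assoc, mul_inv_cancel_right]
  have e3 : (D.ρ τ).trace = 2 := by
    rw [hn, Matrix.trace_add, m2_trace_of_sq_zero hn2, Matrix.trace_one, Fintype.card_fin]
    norm_num
  rw [e1, e2, e3, D.trace_mul_pow_unip hn hn2] at h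
  push_cast at h
  linear_combination h

/-- Periodicity. -/
theorem periodic (p : ℕ) [CharP k p] (hτ : τ ∈ D.H) (hn : D.ρ τ = 1 + n) (hn2 : n * n = 0)
    (j : ℕ) : D.Ψ (σ₀ * τ ^ (j + p)) = D.Ψ (σ₀ * τ ^ j) := by
  rw [pow_add, ← mul_assoc]
  apply D.Ψ_mul_N _ (D.H.pow_mem hτ p)
  rw [D.ρ_pow_unip hn hn2, CharP.cast_eq_zero, zero_smul, add_zero]

/-- Vanishing. -/
theorem vanish [Finite k] (p : ℕ) [Fact p.Prime] [CharP k p] (h2 : (2 : k) ≠ 0)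
    (hτ : τ ∈ D.H) (hσ₀ : σ₀ ∈ D.H) (hn : D.ρ τ = 1 + n)
    (hn2 : n * n = 0) (j : ℕ)
    (h : ((D.ρ σ₀).trace + (j : k) * (D.ρ σ₀ * n).trace) ^ 2 ≠ 4) :
    (D.Ψ (σ₀ * τ ^ j)).trace = 0 := by
  apply D.f_eq_zero_of_trace_sq_ne p h2 (D.H.mul_mem hσ₀ (D.H.pow_mem hτ j))
  rw [D.trace_mul_pow_unip hn hn2]
  exact h

/-- The cases `p = 3` and `p ≥ 7`: `f(τ) · tr(ρ(σ₀) n) = 0`. -/
theorem unip_contra [Finite k] (p : ℕ) [Fact p.Prime] [CharP k p] (h2 : (2 : k) ≠ 0)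
    (hp : p = 3 ∨ 7 ≤ p) (hτ : τ ∈ D.H) (hσ₀ : σ₀ ∈ D.H) (hn : D.ρ τ = 1 + n) (hn2 : n * n = 0) :
    (D.Ψ τ).trace * (D.ρ σ₀ * n).trace = 0 := by
  rcases hp with hp | hp
  · subst hp
    exact seq_three (fun j => (D.Ψ (σ₀ * τ ^ j)).trace) _ (D.ρ σ₀).trace _
      (fun j => D.rec_step hτ hσ₀ hn hn2 j)
      (fun j => by
        show (D.Ψ (σ₀ * τ ^ (j + 3))).trace = _
        rw [D.periodic 3 hτ hn hn2])
  · exact seq_cubic p hp (fun j => (D.Ψ (σ₀ * τ ^ j)).trace) _ (D.ρ σ₀).trace _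
      (fun j => D.rec_step hτ hσ₀ hn hn2 j)
      (fun j h => D.vanish p h2 hτ hσ₀ hn hn2 j h)

end TwCore

end Fermat.Agent.S56.P3.H726
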